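import Mathlib.Analysis.SpecialFunctions.Pow.Real
import Mathlib.Analysis.Real.Sqrt
import Mathlib.Tactic.LinearCombination

/-!
# Danilov's theorem

There are infinitely many pairs of integers with `0 < |x³ - y²| < 0.97 √x`: Danilov's identity
turns the solutions of the Pell equation `u² - 125 w² = -1` with `u ≡ 57 (mod 125)` into such
pairs.
-/

set_option autoImplicit false

noncomputable section

namespace FA.Sharpness

/-- The abscissa attached to `u = 125 q + 57`. -/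
def danilovX (q : ℤ) : ℤ := 3125 * q ^ 2 + 3000 * q + 719

/-- The ordinate attached to `u = 125 q + 57` and `w`. -/
def danilovY (q w : ℤ) : ℤ := w * (15625 * q ^ 2 + 15375 * q + 3781)

/-- Danilov's identity. -/
theorem danilov_identity {q w : ℤ} (h : (125 * q + 57) ^ 2 + 1 = 125 * w ^ 2) :
    danilovX q ^ 3 - danilovY q w ^ 2 = -27 * (2 * q + 1) := by
  refine mul_left_cancel₀ (show (125 : ℤ) ≠ 0 by norm_num) ?_
  simp only [danilovX, danilovY]
  linear_combination (15625 * q ^ 2 + 15375 * q + 3781) ^ 2 * h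

/-- There are solutions of the Pell equation with arbitrarily large `q`. -/
theorem exists_pell (B : ℕ) :
    ∃ q w : ℤ, (B : ℤ) + 5 ≤ q ∧ 0 ≤ w ∧ (125 * q + 57) ^ 2 + 1 = 125 * w ^ 2 := by
  induction B with
  | zero => exact ⟨5, 61, by norm_num, by norm_num, by norm_num⟩
  | succ B ih =>
    obtain ⟨q, w, hq, hw, h⟩ := ih
    refine ⟨1730726404001 * q + 154800875592 * w + 789211240224,
      154800875592 * (125 * q + 57) + 1730726404001 * w, ?_, ?_, ?_⟩
    · push_cast; omega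
    · have : 0 ≤ q := le_trans (by positivity) hq
      positivity
    · linear_combination h

/-- **Danilov's theorem.** -/
theorem exists_danilov (B : ℕ) :
    ∃ x y : ℤ, (B : ℤ) < x ∧ x ^ 3 - y ^ 2 ≠ 0 ∧
      ((|x ^ 3 - y ^ 2| : ℤ) : ℝ) < 0.97 * Real.sqrt x := by
  obtain ⟨q, w, hq, -, h⟩ := exists_pell B
  have hq5 : 5 ≤ q := le_trans (by simp) hq
  refine ⟨danilovX q, danilovY q w, ?_, ?_, ?_⟩
  · simp only [danilovX]; nlinarith
  · rw [danilov_identity h]; omega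
  · rw [danilov_identity h, abs_of_nonpos (by omega)]
    have hpos : (0 : ℝ) ≤ ((-(-27 * (2 * q + 1)) : ℤ) : ℝ) := by exact_mod_cast (by omega)
    have hqR : (5 : ℝ) ≤ (q : ℝ) := by exact_mod_cast hq5
    rw [show (0.97 : ℝ) = Real.sqrt (0.97 ^ 2) from (Real.sqrt_sq (by norm_num)).symm,
      ← Real.sqrt_mul (by norm_num), Real.lt_sqrt hpos]
    simp only [danilovX]
    push_cast
    nlinarith

/-- Infinitely many pairs with `0 < |x³ - y²| < 0.97 √x`. -/
theorem infinite_danilov :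
    {v : ℤ × ℤ | v.1 ^ 3 - v.2 ^ 2 ≠ 0 ∧
      ((|v.1 ^ 3 - v.2 ^ 2| : ℤ) : ℝ) < 0.97 * Real.sqrt v.1}.Infinite := by
  intro hfin
  obtain ⟨B, hB⟩ := (hfin.image fun v => v.1.natAbs).bddAbove
  obtain ⟨x, y, hx, h⟩ := exists_danilov B
  have hxB : x.natAbs ≤ B := hB ⟨(x, y), h, rfl⟩
  omega

/-- The exponent `1/2` in Hall's conjecture cannot be raised. -/
theorem hall_exponent_half_optimal {θ c : ℝ} (hθ : 1 / 2 < θ) (hc : 0 < c) :
    ∃ x y : ℤ, 0 < x ∧ x ^ 3 - y ^ 2 ≠ 0 ∧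
      ((|x ^ 3 - y ^ 2| : ℤ) : ℝ) < c * (x : ℝ) ^ θ := by
  obtain ⟨B, hB⟩ := exists_nat_gt ((1 / c) ^ ((θ - 1 / 2)⁻¹))
  obtain ⟨x, y, hx, hne, h⟩ := exists_danilov B
  refine ⟨x, y, by omega, hne, h.trans_le ?_⟩
  have hxR : (B : ℝ) < (x : ℝ) := by exact_mod_cast hx
  have hx0 : (0 : ℝ) < x := lt_of_le_of_lt (Nat.cast_nonneg B) hxR
  have h1 := Real.rpow_le_rpow (by positivity) (hB.trans hxR).le (by linarith : 0 ≤ θ - 1 / 2)
  rw [← Real.rpow_mul (by positivity), inv_mul_cancel₀ (by linarith), Real.rpow_one,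
    div_le_iff₀ hc] at h1
  rw [show (x : ℝ) ^ θ = (x : ℝ) ^ (θ - 1 / 2) * Real.sqrt x by
    rw [Real.sqrt_eq_rpow, ← Real.rpow_add hx0, sub_add_cancel], ← mul_assoc]
  exact mul_le_mul_of_nonneg_right (by linarith) (Real.sqrt_nonneg _)

end FA.Sharpness

end
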