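import Fermat.Agent.Abc.Frey
import Mathlib.NumberTheory.Divisors
import Mathlib.NumberTheory.ArithmeticFunction.Misc
import Mathlib.Analysis.SpecialFunctions.Log.Basic

/-!
# The abc inequality fails with a polylogarithmic loss

Two numbers composed of given odd primes which are congruent modulo a large power of `2` give a
coprime triple `a + b = c` with `c > rad (a b c) (log c) ^ A`. Through the Frey curve the exponent
`6` of the Hall and Szpiro bounds cannot be attained.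
-/

set_option autoImplicit false

noncomputable section

open UniqueFactorizationMonoid (radical radical_pow)

namespace FA.Sharpness

theorem card_divisors_prod_pow (P : Finset ℕ) (hP : ∀ p ∈ P, p.Prime) (E : ℕ) :
    ((∏ p ∈ P, p) ^ E).divisors.card = (E + 1) ^ P.card := by
  induction P using Finset.induction_on with
  | empty => simp
  | insert a s ha ih =>
    have hap := hP a (Finset.mem_insert_self a s)
    have hs : ∀ p ∈ s, p.Prime := fun p hp => hP p (Finset.mem_insert_of_mem hp)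
    have hco : a.Coprime (∏ p ∈ s, p) := Nat.Coprime.prod_right fun p hp =>
      (Nat.coprime_primes hap (hs p hp)).2 fun h => ha (h ▸ hp)
    rw [Finset.prod_insert ha, mul_pow, Nat.Coprime.card_divisors_mul (hco.pow E E), ih hs,
      Nat.divisors_prime_pow hap, Finset.card_map, Finset.card_range,
      Finset.card_insert_of_notMem ha,
      pow_succ']

/-- A coprime triple from two smooth numbers congruent modulo a power of `2`. -/
theorem exists_triple (P : Finset ℕ) (hP : ∀ p ∈ P, p.Prime) (h2 : 2 ∉ P) (hne : P.Nonempty)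
    {E : ℕ} (hE : 0 < E) :
    ∃ a b c m : ℕ, 0 < a ∧ 0 < b ∧ a.Coprime b ∧ a + b = c ∧ c ≤ (∏ p ∈ P, p) ^ E ∧
      (E + 1) ^ P.card ≤ 2 ^ (m + 1) ∧ 2 ^ m ≤ b ∧
      radical (a * b * c) * 2 ^ m ≤ (∏ p ∈ P, p) * (2 * b) := by
  set Q := ∏ p ∈ P, p
  have hpos : 0 < Q := Finset.prod_pos fun p hp => (hP p hp).pos
  set n := Q ^ E
  have hn : n ≠ 0 := pow_ne_zero _ hpos.ne'
  have hcard : n.divisors.card = (E + 1) ^ P.card := card_divisors_prod_pow P hP E
  have hone : 2 ≤ (E + 1) ^ P.card :=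
    (show 2 ≤ E + 1 by omega).trans (Nat.le_self_pow hne.card_pos.ne' _)
  set m := Nat.log 2 ((E + 1) ^ P.card - 1)
  have hm1 : 2 ^ m ≤ (E + 1) ^ P.card - 1 := Nat.pow_log_le_self 2 (by omega)
  have hm2 : (E + 1) ^ P.card - 1 < 2 ^ (m + 1) := Nat.lt_pow_succ_log_self one_lt_two _
  have hlt : (Finset.range (2 ^ m)).card < n.divisors.card := by
    rw [Finset.card_range, hcard]; omega
  obtain ⟨x, hx, y, hy, hxy, hmod⟩ := Finset.exists_ne_map_eq_of_card_lt_of_maps_to hlt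
    (f := fun d => d % 2 ^ m) fun d _ => Finset.mem_range.2 (Nat.mod_lt _ (by positivity))
  wlog hle : x < y generalizing x y
  · exact this y hy x hx hxy.symm hmod.symm (lt_of_le_of_ne (not_lt.1 hle) hxy.symm)
  have hxd := Nat.dvd_of_mem_divisors hx
  have hyd := Nat.dvd_of_mem_divisors hy
  have hx0 : 0 < x := Nat.pos_of_mem_divisors hx
  have hodd : ∀ d : ℕ, d ∣ n → (2 ^ m).Coprime d := fun d hd => by
    refine Nat.Coprime.coprime_dvd_right hd ((Nat.Coprime.prod_right fun p hp => ?_).pow m E)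
    exact (Nat.coprime_primes Nat.prime_two (hP p hp)).2 fun h => h2 (h ▸ hp)
  obtain ⟨a, c, hco, ha, hc⟩ := Nat.exists_coprime x y
  set g := Nat.gcd x y
  have hg : 0 < g := Nat.gcd_pos_of_pos_left y hx0
  have hac : a < c := by
    rw [ha, hc] at hle
    exact Nat.lt_of_mul_lt_mul_right hle
  have ha0 : 0 < a := Nat.pos_of_ne_zero fun h => by rw [h, zero_mul] at ha; omega
  have hdvd : 2 ^ m ∣ c - a := by
    have h := (Nat.modEq_iff_dvd' hle.le).1 hmod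
    rw [ha, hc, ← Nat.sub_mul] at h
    exact (hodd g ((Nat.gcd_dvd_left x y).trans hxd)).dvd_of_dvd_mul_right h
  refine ⟨a, c - a, c, m, ha0, by omega, ?_, by omega, ?_, by omega,
    Nat.le_of_dvd (by omega) hdvd, ?_⟩
  · rw [Nat.coprime_sub_self_right hac.le]; exact hco
  · calc c ≤ c * g := Nat.le_mul_of_pos_right c hg
      _ = y := hc.symm
      _ ≤ n := Nat.le_of_dvd (Nat.pos_of_ne_zero hn) hyd
  · obtain ⟨t, ht⟩ := hdvd
    have ht0 : t ≠ 0 := fun h => by rw [h, mul_zero] at ht; omega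
    have hrac : radical (a * c) ≤ Q := by
      have hd : a * c ∣ Q ^ (E + E) := by
        rw [pow_add]
        exact mul_dvd_mul ((Dvd.intro g ha.symm).trans hxd) ((Dvd.intro g hc.symm).trans hyd)
      exact (FA.Abc.rad_mono hd (pow_ne_zero _ hpos.ne')).trans (FA.Abc.rad_pow_le hpos.ne' _)
    rw [ht]
    calc radical (a * (2 ^ m * t) * c) * 2 ^ m
        ≤ radical (a * c) * (2 * t) * 2 ^ m := Nat.mul_le_mul ?_ le_rfl
      _ ≤ Q * (2 * t) * 2 ^ m := Nat.mul_le_mul (Nat.mul_le_mul hrac le_rfl) le_rfl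
      _ = Q * (2 * (2 ^ m * t)) := by ring
    rw [show a * (2 ^ m * t) * c = a * c * (2 ^ m * t) by ring]
    exact (FA.Abc.rad_mul_le _ _).trans (Nat.mul_le_mul le_rfl ((FA.Abc.rad_mul_le _ _).trans
      (Nat.mul_le_mul (FA.Abc.rad_pow_le two_ne_zero _) (FA.Abc.rad_le_self ht0))))

/-- **Sharpness of abc**: for every `A` there are coprime triples with arbitrarily large `c` and
`c > rad (a b c) (log c) ^ A`. -/
theorem exists_large_triple (A B : ℕ) :
    ∃ a b c : ℕ, 0 < a ∧ 0 < b ∧ a.Coprime b ∧ a + b = c ∧ B < c ∧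
      ((radical (a * b * c) : ℕ) : ℝ) * Real.log c ^ A < c := by
  obtain ⟨P, hPs, hPc⟩ :=
    (Nat.infinite_setOfPred_prime.sdiff (Set.finite_singleton 2)).exists_subset_card_eq (A + 1)
  have hP : ∀ p ∈ P, p.Prime := fun p hp => (hPs hp).1
  have h2 : 2 ∉ P := fun h => (hPs h).2 rfl
  set Q := ∏ p ∈ P, p
  have hQpos : 0 < Q := Finset.prod_pos fun p hp => (hP p hp).pos
  obtain ⟨E, hE⟩ := exists_nat_gt (max (4 * (Q : ℝ) * max (Real.log Q) 1 ^ A) (2 * (B : ℝ) + 1))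
  obtain ⟨hE1, hE2⟩ := max_lt_iff.1 hE
  have hE0 : 0 < E := Nat.pos_of_ne_zero fun h => by
    subst h; push_cast at hE2; linarith [(Nat.cast_nonneg B : (0 : ℝ) ≤ B)]
  obtain ⟨a, b, c, m, ha, hb, hab, habc, hcle, hcnt, hmb, hrad⟩ :=
    exists_triple P hP h2 (Finset.card_pos.1 (by omega)) hE0
  rw [hPc] at hcnt
  refine ⟨a, b, c, ha, hb, hab, habc, ?_, ?_⟩
  · have h1 : E + 1 ≤ (E + 1) ^ (A + 1) := Nat.le_self_pow A.succ_ne_zero _
    have h2' : 2 * B + 1 < E := by exact_mod_cast hE2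
    have h3 : 2 ^ (m + 1) = 2 * 2 ^ m := pow_succ' 2 m
    omega
  set L := max (Real.log Q) 1
  have hL0 : 0 ≤ L := le_max_of_le_right zero_le_one
  have hc0 : (0 : ℝ) < c := by exact_mod_cast (show 0 < c by omega)
  have hlog : Real.log c ≤ E * L := by
    have h1 : Real.log c ≤ Real.log (((Q ^ E : ℕ) : ℝ)) :=
      Real.log_le_log hc0 (by exact_mod_cast hcle)
    rw [Nat.cast_pow, Real.log_pow] at h1
    exact h1.trans (mul_le_mul_of_nonneg_left (le_max_left _ _) (Nat.cast_nonneg E))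
  have hlog0 : 0 ≤ Real.log c := Real.log_natCast_nonneg c
  have h3 : (4 * (Q : ℝ)) * Real.log c ^ A < ((E : ℝ) + 1) ^ (A + 1) := by
    calc (4 * (Q : ℝ)) * Real.log c ^ A ≤ 4 * Q * ((E : ℝ) * L) ^ A :=
          mul_le_mul_of_nonneg_left (pow_le_pow_left₀ hlog0 hlog A) (by positivity)
      _ = (E : ℝ) ^ A * (4 * Q * L ^ A) := by ring
      _ < (E : ℝ) ^ A * ((E : ℝ) + 1) :=
          mul_lt_mul_of_pos_left (by linarith) (pow_pos (by exact_mod_cast hE0) A)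
      _ ≤ ((E : ℝ) + 1) ^ A * ((E : ℝ) + 1) := mul_le_mul_of_nonneg_right
          (pow_le_pow_left₀ (Nat.cast_nonneg E) (by linarith) A) (by positivity)
      _ = _ := (pow_succ _ _).symm
  have h4 : ((E : ℝ) + 1) ^ (A + 1) ≤ (2 : ℝ) ^ (m + 1) := by exact_mod_cast hcnt
  have h5 : ((radical (a * b * c) : ℕ) : ℝ) * (2 : ℝ) ^ m ≤ (Q : ℝ) * (2 * (b : ℝ)) := by
    exact_mod_cast hrad
  have h6 : (b : ℝ) < c := by exact_mod_cast (show b < c by omega)
  set R := ((radical (a * b * c) : ℕ) : ℝ)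
  have hR : 0 < R := by
    have := FA.Abc.one_le_rad_cast (a * b * c)
    linarith
  have hQR : (0 : ℝ) < Q := by exact_mod_cast hQpos
  refine lt_of_mul_lt_mul_left ?_ (by positivity : (0 : ℝ) ≤ 4 * Q)
  calc 4 * (Q : ℝ) * (R * Real.log c ^ A) = R * (4 * Q * Real.log c ^ A) := by ring
    _ < R * (2 : ℝ) ^ (m + 1) := mul_lt_mul_of_pos_left (h3.trans_le h4) hR
    _ = 2 * (R * (2 : ℝ) ^ m) := by rw [pow_succ]; ring
    _ ≤ 2 * ((Q : ℝ) * (2 * (b : ℝ))) := by linarith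
    _ ≤ 4 * (Q : ℝ) * c := by nlinarith

/-- Infinitely many coprime triples beat every polylogarithmic form of the abc inequality. -/
theorem infinite_triples (A : ℕ) :
    {v : ℕ × ℕ × ℕ | 0 < v.1 ∧ 0 < v.2.1 ∧ v.1.Coprime v.2.1 ∧ v.1 + v.2.1 = v.2.2 ∧
      ((radical (v.1 * v.2.1 * v.2.2) : ℕ) : ℝ) * Real.log v.2.2 ^ A < v.2.2}.Infinite := by
  intro hfin
  obtain ⟨B, hB⟩ := (hfin.image fun v => v.2.2).bddAbove
  obtain ⟨a, b, c, ha, hb, hab, habc, hBc, h⟩ := exists_large_triple A B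
  have hcB : c ≤ B := hB ⟨(a, b, c), ⟨ha, hb, hab, habc, h⟩, rfl⟩
  omega

/-- No bound `c ≤ C rad (a b c) (log c) ^ A` holds. -/
theorem not_abc_polylog (A : ℕ) :
    ¬∃ C : ℝ, ∀ a b c : ℕ, 0 < a → 0 < b → a.Coprime b → a + b = c →
      (c : ℝ) ≤ C * ((radical (a * b * c) : ℕ) : ℝ) * Real.log c ^ A := by
  rintro ⟨C, hC⟩
  obtain ⟨B, hB⟩ := exists_nat_gt (Real.exp (max C 1))
  obtain ⟨a, b, c, ha, hb, hab, habc, hBc, h⟩ := exists_large_triple (A + 1) B
  have h1 := hC a b c ha hb hab habc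
  have hc : max C 1 < Real.log c := by
    rw [Real.lt_log_iff_exp_lt (by exact_mod_cast (show 0 < c by omega))]
    exact hB.trans (by exact_mod_cast hBc)
  have hlog0 : 0 ≤ Real.log c := Real.log_natCast_nonneg c
  have : C * ((radical (a * b * c) : ℕ) : ℝ) * Real.log c ^ A ≤
      ((radical (a * b * c) : ℕ) : ℝ) * Real.log c ^ (A + 1) := by
    calc C * ((radical (a * b * c) : ℕ) : ℝ) * Real.log c ^ A
        ≤ Real.log c * ((radical (a * b * c) : ℕ) : ℝ) * Real.log c ^ A :=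
          mul_le_mul_of_nonneg_right (mul_le_mul_of_nonneg_right
            ((le_max_left C 1).trans hc.le) (Nat.cast_nonneg _)) (pow_nonneg hlog0 A)
      _ = _ := by rw [pow_succ]; ring
  linarith

theorem exists_triple_gt (C : ℝ) :
    ∃ a b : ℕ, 0 < a ∧ 0 < b ∧ a.Coprime b ∧
      C * ((radical (a * b * (a + b)) : ℕ) : ℝ) < (a : ℝ) + b := by
  by_contra! h
  refine not_abc_polylog 0 ⟨C, fun a b c ha hb hab habc => ?_⟩
  subst habc
  rw [pow_zero, mul_one]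
  push_cast
  exact h a b ha hb hab

/-- The exponent `6` of the Hall bound is sharp. -/
theorem not_hall_exponent_six {e : ℝ} (he : e ≤ 6) :
    ¬∃ C : ℝ, ∀ x y : ℤ, x ^ 3 ≠ y ^ 2 → Int.gcd x y ∣ 6 ^ 2 →
      ((max (|x| ^ 3) (y ^ 2) : ℤ) : ℝ) ≤
        C * ((radical (x ^ 3 - y ^ 2).natAbs : ℕ) : ℝ) ^ e := by
  rintro ⟨C, hC⟩
  set K : ℝ := max C 1 * 6 ^ 6 with hK
  obtain ⟨a, b, ha, hb, hab, hbig⟩ := exists_triple_gt K
  have hab' : IsCoprime (a : ℤ) b := Nat.isCoprime_iff_coprime.2 hab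
  set s : ℤ := (a : ℤ) ^ 2 + a * b + (b : ℤ) ^ 2 with hs
  set t : ℤ := ((b : ℤ) - a) * (2 * a + b) * (a + 2 * b) with ht
  have hD : (4 * s) ^ 3 - (4 * t) ^ 2 = ((432 * (a * b * (a + b)) ^ 2 : ℕ) : ℤ) := by
    rw [hs, ht]; push_cast; ring
  have hne : (4 * s) ^ 3 ≠ (4 * t) ^ 2 := by
    rw [← sub_ne_zero, hD]; positivity
  have hgcd : Int.gcd (4 * s) (4 * t) ∣ 6 ^ 2 := by
    rw [Int.gcd_mul_left]
    exact (mul_dvd_mul_left _ (FA.Abc.gcd_invariants_dvd_three hab')).trans (by norm_num)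
  have e1 := hC (4 * s) (4 * t) hne hgcd
  rw [hD, Int.natAbs_natCast] at e1
  set r := radical (a * b * (a + b))
  have hr : radical (432 * (a * b * (a + b)) ^ 2) ≤ 6 * r := by
    refine (FA.Abc.rad_mul_le _ _).trans (Nat.mul_le_mul FA.Abc.radical_fourhundredthirtytwo_le ?_)
    rw [radical_pow _ two_ne_zero]
  have hlow : ((a : ℝ) + b) ^ 6 ≤ ((max (|4 * s| ^ 3) ((4 * t) ^ 2) : ℤ) : ℝ) := by
    have h4 : ((a : ℤ) + b) ^ 6 ≤ max (|4 * s| ^ 3) ((4 * t) ^ 2) := by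
      refine le_max_of_le_left ?_
      rw [show 6 = 2 * 3 by norm_num, pow_mul]
      refine pow_le_pow_left₀ (by positivity) (le_trans ?_ (le_abs_self _)) 3
      rw [hs]; nlinarith [sq_nonneg ((a : ℤ) - b), sq_nonneg ((a : ℤ) + b)]
    have h5 := (Int.cast_le (R := ℝ)).2 h4
    simp only [Int.cast_pow, Int.cast_add, Int.cast_natCast] at h5
    exact h5
  set R' := ((radical (432 * (a * b * (a + b)) ^ 2) : ℕ) : ℝ)
  have hR1 : 1 ≤ R' := FA.Abc.one_le_rad_cast _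
  have h6 : R' ^ e ≤ (6 * (r : ℝ)) ^ 6 := by
    refine ((Real.rpow_le_rpow_of_exponent_le hR1 he).trans_eq (Real.rpow_natCast R' 6)).trans
      (pow_le_pow_left₀ (Nat.cast_nonneg _) ?_ 6)
    have h' : R' ≤ ((6 * r : ℕ) : ℝ) := Nat.cast_le.2 hr
    rw [Nat.cast_mul, Nat.cast_ofNat] at h'
    exact h'
  have h7 : ((a : ℝ) + b) ^ 6 ≤ max C 1 * 6 ^ 6 * (r : ℝ) ^ 6 :=
    (hlow.trans e1).trans
    ((mul_le_mul (le_max_left C 1) h6 (by positivity) (by positivity)).trans_eq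
      (by ring))
  have hK1 : 1 ≤ K := by
    rw [hK]; exact one_le_mul_of_one_le_of_one_le (le_max_right _ _) (by norm_num)
  have hr0 : (0 : ℝ) ≤ r := Nat.cast_nonneg _
  have h8 : (K * (r : ℝ)) ^ 6 < ((a : ℝ) + b) ^ 6 :=
    pow_lt_pow_left₀ hbig (by positivity) (by norm_num)
  have h9 : K * (r : ℝ) ^ 6 ≤ (K * (r : ℝ)) ^ 6 := by
    rw [mul_pow]
    exact mul_le_mul_of_nonneg_right (le_self_pow₀ hK1 (by norm_num)) (by positivity)
  linarith

/-- The exponent `6` of the Szpiro bound is sharp. -/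
theorem not_szpiro_exponent_six {e : ℝ} (he : e ≤ 6) :
    ¬∃ C : ℝ, ∀ W : WeierstrassCurve ℤ, W.Δ ≠ 0 → Int.gcd W.c₄ W.c₆ ∣ 6 ^ 5 →
      ((max (|W.c₄| ^ 3) (W.c₆ ^ 2) : ℤ) : ℝ) ≤
        C * ((radical W.Δ.natAbs : ℕ) : ℝ) ^ e := by
  rintro ⟨C, hC⟩
  set K : ℝ := max C 1 * 2 ^ 6 with hK
  obtain ⟨a, b, ha, hb, hab, hbig⟩ := exists_triple_gt K
  have hab' : IsCoprime (a : ℤ) b := Nat.isCoprime_iff_coprime.2 hab
  have hD : (FA.Abc.freyCurve a b).Δ = ((16 * (a * b * (a + b)) ^ 2 : ℕ) : ℤ) := by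
    rw [FA.Abc.freyCurve_Δ]; push_cast; rfl
  have hgcd : Int.gcd (FA.Abc.freyCurve a b).c₄ (FA.Abc.freyCurve a b).c₆ ∣ 6 ^ 5 := by
    rw [FA.Abc.freyCurve_c₄, FA.Abc.freyCurve_c₆, show (-32 : ℤ) = 16 * -2 by norm_num,
      mul_assoc (16 : ℤ), Int.gcd_mul_left]
    refine (mul_dvd_mul_left _ (dvd_trans ?_ (mul_dvd_mul_left 2
      (FA.Abc.gcd_invariants_dvd_three hab')))).trans
      (by norm_num : (16 : ℤ).natAbs * (2 * 3) ∣ 6 ^ 5)
    simp only [Int.gcd_def, Int.natAbs_mul]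
    rw [← Nat.gcd_mul_left]
    exact Nat.gcd_dvd_gcd_mul_left_left _ _ 2
  have e1 := hC _ (by rw [hD]; positivity) hgcd
  rw [hD, Int.natAbs_natCast] at e1
  set r := radical (a * b * (a + b))
  have hr : radical (16 * (a * b * (a + b)) ^ 2) ≤ 2 * r := by
    refine (FA.Abc.rad_mul_le _ _).trans (Nat.mul_le_mul ?_ ?_)
    · rw [show (16 : ℕ) = 2 ^ 4 by norm_num]; exact FA.Abc.rad_pow_le two_ne_zero 4
    · rw [radical_pow _ two_ne_zero]
  have hlow : ((a : ℝ) + b) ^ 6 ≤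
      ((max (|(FA.Abc.freyCurve a b).c₄| ^ 3) ((FA.Abc.freyCurve a b).c₆ ^ 2) : ℤ) : ℝ) := by
    have h4 : ((a : ℤ) + b) ^ 6 ≤
        max (|(FA.Abc.freyCurve a b).c₄| ^ 3) ((FA.Abc.freyCurve a b).c₆ ^ 2) := by
      refine le_max_of_le_left ?_
      rw [show 6 = 2 * 3 by norm_num, pow_mul]
      refine pow_le_pow_left₀ (by positivity) (le_trans ?_ (le_abs_self _)) 3
      rw [FA.Abc.freyCurve_c₄]; nlinarith [sq_nonneg ((a : ℤ) - b), sq_nonneg ((a : ℤ) + b)]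
    have h5 := (Int.cast_le (R := ℝ)).2 h4
    simp only [Int.cast_pow, Int.cast_add, Int.cast_natCast] at h5
    exact h5
  set R' := ((radical (16 * (a * b * (a + b)) ^ 2) : ℕ) : ℝ)
  have hR1 : 1 ≤ R' := FA.Abc.one_le_rad_cast _
  have h6 : R' ^ e ≤ (2 * (r : ℝ)) ^ 6 := by
    refine ((Real.rpow_le_rpow_of_exponent_le hR1 he).trans_eq (Real.rpow_natCast R' 6)).trans
      (pow_le_pow_left₀ (Nat.cast_nonneg _) ?_ 6)
    have h' : R' ≤ ((2 * r : ℕ) : ℝ) := Nat.cast_le.2 hr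
    rw [Nat.cast_mul, Nat.cast_ofNat] at h'
    exact h'
  have h7 : ((a : ℝ) + b) ^ 6 ≤ max C 1 * 2 ^ 6 * (r : ℝ) ^ 6 :=
    (hlow.trans e1).trans
    ((mul_le_mul (le_max_left C 1) h6 (by positivity) (by positivity)).trans_eq
      (by ring))
  have hK1 : 1 ≤ K := by
    rw [hK]; exact one_le_mul_of_one_le_of_one_le (le_max_right _ _) (by norm_num)
  have hr0 : (0 : ℝ) ≤ r := Nat.cast_nonneg _
  have h8 : (K * (r : ℝ)) ^ 6 < ((a : ℝ) + b) ^ 6 :=
    pow_lt_pow_left₀ hbig (by positivity) (by norm_num)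
  have h9 : K * (r : ℝ) ^ 6 ≤ (K * (r : ℝ)) ^ 6 := by
    rw [mul_pow]
    exact mul_le_mul_of_nonneg_right (le_self_pow₀ hK1 (by norm_num)) (by positivity)
  linarith

end FA.Sharpness

end
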